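import Mathlib.RingTheory.MvPolynomial.Basic
import Mathlib.RingTheory.MvPolynomial.Homogeneous
import Mathlib.Combinatorics.Nullstellensatz
import Mathlib.Algebra.Order.Antidiag.FinsuppEquiv
import Mathlib.Data.Finsupp.Fin
import Mathlib.LinearAlgebra.Dimension.Finite
import Mathlib.Tactic

/-!
# The polynomial method for sets containing many lines

A set of fewer than `C(n + d, n)` points of `F ^ n` lies on a hypersurface of degree at most `d`;
along a line such a hypersurface containing `d + 1` points of the line contains all of it and its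
top form vanishes at the direction (Dvir).
-/

set_option autoImplicit false

noncomputable section

open MvPolynomial Finset

namespace FA.FiniteKakeya

variable {F : Type*} [Field F] {n : ℕ}

/-- The number of monomials of degree at most `d`. -/
theorem finrank_totalDegree_le (n d : ℕ) :
    Module.finrank F (restrictTotalDegree (Fin n) F d) = (n + d).choose n := by
  classical
  rw [restrictTotalDegree, Module.finrank_eq_nat_card_basis (basisRestrictSupport F _)]
  have himg : {m : Fin n →₀ ℕ | (m.sum fun _ e => e) ≤ d} =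
      Finsupp.tail '' ((univ : Finset (Fin (n + 1))).finsuppAntidiag d : Set _) := by
    ext m
    simp only [Set.mem_ofPred_eq, Set.mem_image, mem_coe, mem_finsuppAntidiag, subset_univ,
      and_true]
    refine ⟨fun h => ⟨Finsupp.cons (d - m.sum fun _ e => e) m, ?_, Finsupp.tail_cons _ _⟩, ?_⟩
    · rw [Fin.sum_univ_succ, Finsupp.cons_zero]
      simp only [Finsupp.cons_succ]
      rw [Finsupp.sum_fintype _ _ (fun _ => rfl)] at h ⊢
      exact Nat.sub_add_cancel h
    · rintro ⟨f, hf, rfl⟩
      rw [Fin.sum_univ_succ] at hf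
      rw [Finsupp.sum_fintype _ _ (fun _ => rfl)]
      simp only [Finsupp.tail_apply]
      omega
  rw [himg, Nat.card_coe_set_eq, Set.InjOn.ncard_image ?_, Set.ncard_coe_finset,
    card_finsuppAntidiag_nat_eq_choose, card_univ, Fintype.card_fin,
    show n + 1 + d - 1 = n + d by omega, Nat.choose_symm_add]
  intro f hf g hg h
  simp only [mem_coe, mem_finsuppAntidiag, Fin.sum_univ_succ] at hf hg
  rw [← Finsupp.cons_tail f, ← Finsupp.cons_tail g, h]
  have : ∀ i, f (Fin.succ i) = g (Fin.succ i) := fun i => by
    simpa [Finsupp.tail_apply] using DFunLike.congr_fun h i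
  congr 1
  simp only [this] at hf
  omega

/-- A small set lies on a hypersurface of small degree. -/
theorem exists_vanishing (K : Finset (Fin n → F)) {d : ℕ} (hK : #K < (n + d).choose n) :
    ∃ P : MvPolynomial (Fin n) F, P ≠ 0 ∧ P.totalDegree ≤ d ∧ ∀ x ∈ K, eval x P = 0 := by
  classical
  let φ : restrictTotalDegree (Fin n) F d →ₗ[F] (K → F) :=
    LinearMap.pi fun x => (MvPolynomial.aeval (x : Fin n → F)).toLinearMap ∘ₗ Submodule.subtype _
  have : LinearMap.ker φ ≠ ⊥ := fun h => by
    have := LinearMap.finrank_le_finrank_of_injective (LinearMap.ker_eq_bot.1 h)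
    rw [finrank_totalDegree_le, Module.finrank_fintype_fun_eq_card, Fintype.card_coe] at this
    omega
  obtain ⟨⟨P, hP⟩, hker, hne⟩ := Submodule.exists_mem_ne_zero_of_ne_bot this
  refine ⟨P, fun h => hne (Subtype.ext h), (mem_restrictTotalDegree _ _ _).1 hP, fun x hx => ?_⟩
  have := congrFun (LinearMap.mem_ker.1 hker) ⟨x, hx⟩
  simpa [φ] using this

/-- The restriction of a polynomial to a line. -/
def alongLine (P : MvPolynomial (Fin n) F) (a v : Fin n → F) : Polynomial F :=
  ∑ m ∈ P.support,
    Polynomial.C (coeff m P) * ∏ i, (Polynomial.C (v i) * Polynomial.X + Polynomial.C (a i)) ^ m i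

theorem eval_alongLine (P : MvPolynomial (Fin n) F) (a v : Fin n → F) (t : F) :
    (alongLine P a v).eval t = eval (a + t • v) P := by
  simp only [alongLine, eval_eq', Polynomial.eval_finsetSum, Polynomial.eval_mul,
    Polynomial.eval_prod, Polynomial.eval_pow, Polynomial.eval_add, Polynomial.eval_C,
    Polynomial.eval_X, Pi.add_apply, Pi.smul_apply, smul_eq_mul]
  refine sum_congr rfl fun m _ => ?_
  congr 1
  exact prod_congr rfl fun i _ => by ring

theorem prod_linear {ι : Type*} (s : Finset ι) (a v : ι → F) (m : ι → ℕ) :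
    (∏ i ∈ s, (Polynomial.C (v i) * Polynomial.X + Polynomial.C (a i)) ^ m i).natDegree ≤
        ∑ i ∈ s, m i ∧
      (∏ i ∈ s, (Polynomial.C (v i) * Polynomial.X + Polynomial.C (a i)) ^ m i).coeff
        (∑ i ∈ s, m i) = ∏ i ∈ s, v i ^ m i := by
  classical
  induction s using Finset.induction_on with
  | empty => simp
  | @insert i s hi ih =>
    rw [prod_insert hi, sum_insert hi, prod_insert hi]
    have h1 : ((Polynomial.C (v i) * Polynomial.X + Polynomial.C (a i)) ^ m i).natDegree ≤ m i :=
      (Polynomial.natDegree_pow_le_of_le (m i) Polynomial.natDegree_linear_le).trans (by simp)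
    refine ⟨Polynomial.natDegree_mul_le_of_le h1 ih.1, ?_⟩
    rw [Polynomial.coeff_mul_add_eq_of_natDegree_le h1 ih.1, ih.2]
    congr 1
    have := Polynomial.coeff_pow_of_natDegree_le (m := m i)
      (p := Polynomial.C (v i) * Polynomial.X + Polynomial.C (a i)) Polynomial.natDegree_linear_le
    rw [mul_one] at this
    rw [this]
    simp

theorem natDegree_alongLine (P : MvPolynomial (Fin n) F) (a v : Fin n → F) :
    (alongLine P a v).natDegree ≤ P.totalDegree := by
  refine Polynomial.natDegree_sum_le_of_forall_le _ _ fun m hm => ?_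
  refine (Polynomial.natDegree_C_mul_le _ _).trans ((prod_linear _ a v m).1.trans ?_)
  have := le_totalDegree hm
  rwa [Finsupp.sum_fintype _ _ (fun _ => rfl)] at this

theorem coeff_alongLine (P : MvPolynomial (Fin n) F) (a v : Fin n → F) :
    (alongLine P a v).coeff P.totalDegree = eval v (homogeneousComponent P.totalDegree P) := by
  classical
  rw [homogeneousComponent_apply, map_sum, alongLine, Polynomial.finsetSum_coeff,
    Finset.sum_filter]
  refine sum_congr rfl fun m hm => ?_
  obtain ⟨h1, h2⟩ := prod_linear univ a v m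
  have hle : ∑ i, m i ≤ P.totalDegree := by
    have := le_totalDegree hm
    rwa [Finsupp.sum_fintype _ _ (fun _ => rfl)] at this
  rw [Polynomial.coeff_C_mul, Finsupp.degree_eq_sum]
  split_ifs with h
  · rw [← h, h2, eval_monomial, Finsupp.prod_fintype _ _ (fun _ => pow_zero _)]
  · rw [Polynomial.coeff_eq_zero_of_natDegree_lt (h1.trans_lt (hle.lt_of_ne h)), mul_zero]

/-- A polynomial vanishing at more points of a line than its degree vanishes on the line. -/
theorem vanish_on_line (P : MvPolynomial (Fin n) F) (a v : Fin n → F) (S : Finset F)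
    (hS : P.totalDegree < #S) (h : ∀ t ∈ S, eval (a + t • v) P = 0) :
    eval a P = 0 ∧ eval v (homogeneousComponent P.totalDegree P) = 0 := by
  have hg : alongLine P a v = 0 :=
    Polynomial.eq_zero_of_natDegree_lt_card_of_eval_eq_zero' _ S
      (fun t ht => (eval_alongLine P a v t).trans (h t ht))
      ((natDegree_alongLine P a v).trans_lt hS)
  refine ⟨?_, by rw [← coeff_alongLine P a v, hg, Polynomial.coeff_zero]⟩
  have := eval_alongLine P a v 0
  rwa [hg, Polynomial.eval_zero, zero_smul, add_zero, eq_comm] at this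

theorem topComponent_ne_zero {P : MvPolynomial (Fin n) F} (hP : P ≠ 0) :
    homogeneousComponent P.totalDegree P ≠ 0 := by
  obtain ⟨m, hm, hd⟩ := exists_mem_eq_sup P.support (support_nonempty.2 hP)
    (fun s => s.sum fun _ e => e)
  intro h
  refine mem_support_iff.1 hm ?_
  have := congrArg (coeff m) h
  rwa [coeff_homogeneousComponent, coeff_zero, if_pos] at this
  rw [Finsupp.degree_eq_sum, totalDegree, hd, Finsupp.sum_fintype _ _ (fun _ => rfl)]

variable [Fintype F]

theorem eq_zero_of_totalDegree_lt (P : MvPolynomial (Fin n) F)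
    (hd : P.totalDegree < Fintype.card F) (h : ∀ x, eval x P = 0) : P = 0 :=
  eq_zero_of_eval_zero_at_prod_finset P (fun _ => univ)
    (fun i => (degreeOf_le_totalDegree P i).trans_lt (hd.trans_eq card_univ.symm)) fun x _ => h x

/-- **Dvir's theorem.** -/
theorem kakeya (hn : 1 ≤ n) (K : Finset (Fin n → F))
    (hK : ∀ v : Fin n → F, v ≠ 0 → ∃ a, ∀ t : F, a + t • v ∈ K) :
    (Fintype.card F + n - 1).choose n ≤ #K := by
  by_contra! hlt
  obtain ⟨q, hq⟩ : ∃ q, Fintype.card F = q + 1 :=
    ⟨Fintype.card F - 1, (Nat.sub_add_cancel Fintype.card_pos).symm⟩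
  rw [hq, show q + 1 + n - 1 = n + q by omega] at hlt
  obtain ⟨P, hP, hd, hPK⟩ := exists_vanishing K hlt
  refine topComponent_ne_zero hP (eq_zero_of_totalDegree_lt _ ?_ fun v => ?_)
  · have := (homogeneousComponent_isHomogeneous P.totalDegree P).totalDegree_le
    omega
  by_cases hv : v = 0
  · have he : (fun _ => 1 : Fin n → F) ≠ 0 := fun h => one_ne_zero (congrFun h ⟨0, hn⟩)
    obtain ⟨a, ha⟩ := hK _ he
    refine (vanish_on_line P a v univ (by rw [card_univ]; omega) fun t _ => ?_).2
    rw [hv, smul_zero, add_zero]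
    have := ha 0
    rw [zero_smul, add_zero] at this
    exact hPK _ this
  · obtain ⟨a, ha⟩ := hK v hv
    exact (vanish_on_line P a v univ (by rw [card_univ]; omega) fun t _ => hPK _ (ha t)).2

/-- **Nikodym sets.** -/
theorem nikodym (N : Finset (Fin n → F))
    (hN : ∀ x : Fin n → F, ∃ v, ∀ t : F, t ≠ 0 → x + t • v ∈ N) :
    (Fintype.card F + n - 2).choose n ≤ #N := by
  classical
  by_contra! hlt
  obtain ⟨q, hq⟩ : ∃ q, Fintype.card F = q + 2 :=
    ⟨Fintype.card F - 2, (Nat.sub_add_cancel Fintype.one_lt_card).symm⟩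
  rw [hq, show q + 2 + n - 2 = n + q by omega] at hlt
  obtain ⟨P, hP, hd, hPN⟩ := exists_vanishing N hlt
  refine hP (eq_zero_of_totalDegree_lt P (by omega) fun x => ?_)
  obtain ⟨v, hv⟩ := hN x
  refine (vanish_on_line P x v (univ.erase 0) ?_ fun t ht => hPN _ (hv t (ne_of_mem_erase ht))).1
  rw [card_erase_of_mem (mem_univ _), card_univ]
  omega

end FA.FiniteKakeya

end
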